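import Fermat.Agent.SS.H1C.Kron
import Fermat.Agent.SS.Top35.CompatF
import Fermat.Agent.S36.K0

/-!
# SS / H1C : [C2] the nodal datum of `X₀(M q)` with an inertia-fixed second chart

`exists_nodalData_fixed` : at the rigid level `M q` there are `c : A` fixed by the inertia group and a
nodal datum `𝒩` whose charts are `P = (j)_∞`, `P' = (j - c)_0` (all six divisors are exported), such
that every `σ` in the inertia group is compatible with `𝒩` (inducing the identity on the special
fibre) and fixes BOTH charts.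
-/

set_option autoImplicit false
set_option linter.unusedSectionVars false
set_option linter.style.haveILetI false

noncomputable section

open AlgebraicCurve ModularCurve IsLocalRing

namespace Fermat.Agent.SS

open Fermat.Agent.RED hiding Kb
open Fermat.Agent.S24
open Fermat.Agent.RED.Cusp (Fb jb)

variable {M q : ℕ} [NeZero M] [hq : Fact q.Prime] (hqM : ¬ q ∣ M)
variable (A : ValuationSubring Kb) [CharP (ResidueField A) q] [IsAlgClosed (ResidueField A)]

set_option synthInstance.maxHeartbeats 400000 in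
/-- shortcut instance (the search is very slow for `k = ResidueField A`) -/
instance instAlgebraResidueFb (A : ValuationSubring Kb) (M : ℕ) [NeZero M] :
    Algebra (ResidueField A) (Fb (ResidueField A) M) := inferInstance

/-- an inertia-fixed centre for the second chart -/
theorem exists_centre_fixed (hA : A.LiesOverPrime q) :
    ∃ c : A, (∀ σ ∈ A.inertiaSubgroupIn ℚ, σ (c : Kb) = c) ∧
      residue A c ^ (q ^ 2) ≠ residue A c := by
  obtain ⟨c₀, hc₀⟩ := exists_centre (q := q) (residue A) residue_surjective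
  obtain ⟨b, hb, hb1, hbc⟩ := S36.exists_inertia_fixed_residue hq.out hA
    (a := (c₀ : Kb)) ((A.valuation_le_one_iff _).2 c₀.2)
  have hbA : b ∈ A := (A.valuation_le_one_iff _).1 hb1
  refine ⟨⟨b, hbA⟩, hb, ?_⟩
  have hres : residue A ⟨b, hbA⟩ = residue A c₀ := by
    rw [eq_comm, ← sub_eq_zero, ← map_sub, residue_eq_zero_iff]
    exact (A.valuation_lt_one_iff (c₀ - ⟨b, hbA⟩)).2 hbc
  rw [hres]
  exact hc₀

/-- **[C2]** -/
theorem exists_nodalData_fixed (h49 : 4 ∣ M ∨ 9 ∣ M) (hA : A.LiesOverPrime q) :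
    ∃ (c : A) (𝒩 : NodalData (twoRed hqM (residue A) residue_surjective)),
      (∀ σ ∈ A.inertiaSubgroupIn ℚ, σ (c : Kb) = c) ∧
      residue A c ^ (q ^ 2) ≠ residue A c ∧
      𝒩.P = polarDiv Kb (jF (M * q)) ∧
      𝒩.P' = polarDiv Kb (jF (M * q) - algebraMap Kb (FN (M * q)) (c : Kb))⁻¹ ∧
      𝒩.P₁ = polarDiv (ResidueField A) (jb (ResidueField A) M) ∧
      𝒩.P₂ = polarDiv (ResidueField A) (jb (ResidueField A) M ^ q) ∧
      𝒩.P₁' = polarDiv (ResidueField A)
        (jb (ResidueField A) M - algebraMap _ (Fb (ResidueField A) M) (residue A c))⁻¹ ∧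
      𝒩.P₂' = polarDiv (ResidueField A)
        (jb (ResidueField A) M ^ q - algebraMap _ (Fb (ResidueField A) M) (residue A c))⁻¹ ∧
      (∀ σ : GQ, σ ∈ A.inertiaSubgroupIn ℚ → IsCompat 𝒩 (gal (M * q) σ) 1) ∧
      (∀ σ : GQ, σ ∈ A.inertiaSubgroupIn ℚ → gal (M * q) σ • 𝒩.P' = 𝒩.P') := by
  obtain ⟨c, hcI, hcne⟩ := exists_centre_fixed (q := q) A hA
  obtain ⟨n₀, hl⟩ := exists_lift_twoRed hqM (residue A) residue_surjective h49
  obtain ⟨𝒩, hP, hP', hP₁, hP₂, hP₁', hP₂', -, -, -⟩ := (kronDataC hqM (residue A)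
    residue_surjective (cuspOrd M q) n₀ hl c hcne).exists_nodalDataC
    (fun π c hc0 hπ hπ' => by
      rw [twoRed_A] at hπ hπ' ⊢
      exact arch_of_liesOverPrime A hq.out hA π c hc0 hπ hπ')
  refine ⟨c, 𝒩, hcI, hcne, hP, hP', hP₁, hP₂, hP₁', hP₂',
    fun σ hσ => isCompat_of_mem_inertia hqM A hσ 𝒩 hP, fun σ hσ => ?_⟩
  rw [hP']
  refine smul_polarDiv_of_smul_eq (RB.isSepParam_jF (M * q)) _ ?_
  show gal (M * q) σ • (jF (M * q) - algebraMap Kb (FN (M * q)) (c : Kb))⁻¹ =
    (jF (M * q) - algebraMap Kb (FN (M * q)) (c : Kb))⁻¹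
  rw [smul_inv'', smul_sub, gal_smul_jF, gal_smul_algebraMap, hcI σ hσ]

end Fermat.Agent.SS
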