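import Fermat.Agent.SS.Nodal.Main
import Fermat.Agent.SS.Z1.KronInst

/-!
# SS / H1C (concrete side of the `H¹`-lattice route to (NEW-p)) : [C2]

* `KronData.exists_nodalDataC` : same as `KronData.exists_nodalData` (same proof), but ALL the
  divisors of the two charts are exported.
* `kronDataC` : the Kronecker datum of `X₀(M q)` with an EXPLICIT centre `c : A` of the second chart.
-/

set_option autoImplicit false

open AlgebraicCurve

namespace Fermat.Agent.SS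

open Fermat.Agent.RED Fermat.Agent.S24

section Abs

variable {K F k Fb : Type*} [Field K] [Field F] [Algebra K F] [Field k] [Field Fb] [Algebra k Fb]

namespace KronData

variable {T : TwoRed K F k Fb} {q : ℕ} (𝒦 : KronData T q)
variable [IsAlgClosed K] [IsAlgClosed k]

/-- **[NODAL]**, all the divisors exported. -/
theorem exists_nodalDataC
    (arch : ∀ π c : K, c ≠ 0 → π ∈ T.A → π⁻¹ ∉ T.A → ∃ n : ℕ, π ^ n * c⁻¹ ∈ T.A) :
    ∃ 𝒩 : NodalData T, 𝒩.P = 𝒦.Pj ∧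
      𝒩.P' = polarDiv K ((𝒦.j : F) - algebraMap K F 𝒦.c)⁻¹ ∧
      𝒩.P₁ = polarDiv k 𝒦.t ∧ 𝒩.P₂ = polarDiv k (𝒦.t ^ q) ∧
      𝒩.P₁' = polarDiv k (𝒦.t - algebraMap k Fb 𝒦.cb)⁻¹ ∧
      𝒩.P₂' = polarDiv k (𝒦.t ^ q - algebraMap k Fb 𝒦.cb)⁻¹ ∧
      (∀ s, 𝒦.Pb (𝒩.x₁ s) = 0 ∧ 𝒦.Pb (𝒩.x₂ s) = 0) ∧
      (∀ (s : 𝒩.S) (u : 𝒦.Ob) (c : k), HasVal (𝒩.x₁ s) (u : Fb) c →
        HasVal (𝒩.x₁ s) (𝒦.Fr (𝒦.Fr (u : Fb))) c) ∧
      (∀ (s : 𝒩.S) (u : 𝒦.Ob) (c : k), HasVal (𝒩.x₂ s) (u : Fb) c →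
        HasVal (𝒩.x₂ s) (𝒦.Fr (𝒦.Fr (u : Fb))) c) := by
  classical
  obtain ⟨Sg, h1, h2, h3⟩ := 𝒦.exists_nodes_kron
  have hd := 𝒦.degree_Pb_pos
  have hd' : 0 < Divisor.degree (polarDiv k 𝒦.t) := hd
  have hq0 : (0 : ℤ) < q := by have := 𝒦.hq; exact_mod_cast (by omega : 0 < q)
  -- the points
  let e : Fin Sg.card ≃ Sg := Sg.equivFin.symm
  let X : Fin Sg.card → (𝒦.Ob →ₐ[k] k) := fun s => (e s : 𝒦.Ob →ₐ[k] k)
  have hXmem : ∀ s, X s ∈ Sg := fun s => (e s).2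
  have hXinj : Function.Injective X := fun s s' h => e.injective (Subtype.ext h)
  have hXfix : ∀ s a, X s (𝒦.FrOb (𝒦.FrOb a)) = X s a := fun s => h1 _ (hXmem s)
  have ex₁ := fun s => exists_place_of_algHom 𝒦.sep_t (X s)
  have ex₂ := fun s => exists_place_of_algHom 𝒦.sep_t ((X s).comp 𝒦.FrOb)
  choose x₁ hx₁P hx₁ using ex₁
  choose x₂ hx₂P hx₂' using ex₂
  have hx₂ : ∀ s (u : 𝒦.Ob), HasVal (x₂ s) (u : Fb) (X s (𝒦.FrOb u)) := hx₂'
  have hzero : ∀ {Q : Place k Fb} {f : Fb} {c : k}, HasVal Q f c → c ≠ 0 →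
      polarDiv k f⁻¹ Q = 0 := by
    intro Q f c h hc
    rw [𝒦.sep_t.polarDiv_apply, Place.ord_inv, h.ord_eq_zero hc]
    simp
  refine ⟨{
    P := polarDiv K (𝒦.j : F)
    P' := polarDiv K ((𝒦.j : F) - algebraMap K F 𝒦.c)⁻¹
    P₁ := polarDiv k 𝒦.t
    P₂ := polarDiv k (𝒦.t ^ q)
    P₁' := polarDiv k (𝒦.t - algebraMap k Fb 𝒦.cb)⁻¹
    P₂' := polarDiv k (𝒦.t ^ q - algebraMap k Fb 𝒦.cb)⁻¹
    P_nonneg := polarDiv_nonneg _
    P'_nonneg := polarDiv_nonneg _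
    P₁_nonneg := polarDiv_nonneg _
    P₂_nonneg := polarDiv_nonneg _
    P₁'_nonneg := polarDiv_nonneg _
    P₂'_nonneg := polarDiv_nonneg _
    disj := nm_disj 𝒦.sep_j _ _
    disj₁ := nm_disj 𝒦.sep_t _ _
    disj₂ := nm_disj 𝒦.sep_t _ _
    deg_P := by
      rw [𝒦.deg_j, 𝒦.degree_polarDiv_t_pow]; ring
    deg_P' := by
      rw [nm_degree_polarDiv_inv 𝒦.sep_j, nm_polarDiv_sub 𝒦.sep_j, 𝒦.deg_j,
        nm_degree_polarDiv_inv 𝒦.sep_t, nm_polarDiv_sub 𝒦.sep_t,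
        nm_degree_polarDiv_inv 𝒦.sep_t, nm_polarDiv_sub 𝒦.sep_t, 𝒦.degree_polarDiv_t_pow]
      ring
    deg_P₁ := hd'
    deg_P₂ := by rw [𝒦.degree_polarDiv_t_pow]; positivity
    deg_P₁' := by rw [nm_degree_polarDiv_inv 𝒦.sep_t, nm_polarDiv_sub 𝒦.sep_t]; exact hd'
    deg_P₂' := by
      rw [nm_degree_polarDiv_inv 𝒦.sep_t, nm_polarDiv_sub 𝒦.sep_t, 𝒦.degree_polarDiv_t_pow]
      positivity
    pole := 𝒦.pole
    S := Fin Sg.card
    fin := inferInstance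
    x₁ := x₁
    x₂ := x₂
    x₁_inj := by
      intro s s' h
      apply hXinj
      ext u
      have a1 := hx₁ s u
      rw [h] at a1
      exact a1.unique (hx₁ s' u)
    x₂_inj := by
      intro s s' h
      apply hXinj
      ext u
      have a1 := hx₂ s (𝒦.FrOb u)
      rw [h] at a1
      have := a1.unique (hx₂ s' (𝒦.FrOb u))
      rwa [hXfix, hXfix] at this
    avoid₁ := fun s => ⟨hx₁P s, hzero (𝒦.hasVal_fst (hx₁ s)) (𝒦.val_t_ne (hXfix s))⟩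
    avoid₂ := fun s => ⟨by
      rw [nm_polarDiv_pow 𝒦.sep_t, Finsupp.smul_apply, hx₂P s, smul_zero],
      hzero (𝒦.hasVal_snd (hXfix s) (hx₂ s)) (𝒦.val_t_ne (hXfix s))⟩
    glue := fun a b u hu s => 𝒦.glue_aux h2 (hXmem s) (hXfix s) (hx₁ s) (hx₂ s) a b u hu
    card := by rw [Fintype.card_fin]; exact h3
    on2 := 𝒦.on2
    arch := arch }, rfl, rfl, rfl, rfl, rfl, rfl, fun s => ⟨hx₁P s, hx₂P s⟩, ?_, ?_⟩
  · intro s u c hc
    have h := hx₁ s (𝒦.FrOb (𝒦.FrOb u))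
    rw [hXfix, (hx₁ s u).unique hc] at h
    exact h
  · intro s u c hc
    have h := hx₂ s (𝒦.FrOb (𝒦.FrOb u))
    rw [hXfix, (hx₂ s u).unique hc] at h
    exact h

end KronData

end Abs

noncomputable section Concrete

open Polynomial ModularCurve IntermediateField
open Fermat.Agent.RED.Gauss Fermat.Agent.S28
open Fermat.Agent.RED.Cusp (Fb jb)

variable {M q : ℕ} [NeZero M] [hq : Fact q.Prime] (hqM : ¬ q ∣ M)
variable {A : ValuationSubring Kb} {k : Type*} [Field k]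
variable (π : A →+* k) [CharP k q] [IsAlgClosed k] (hπ : Function.Surjective π)

/-- The Kronecker datum of `X₀(M q)` with centre `c` of the second chart. -/
def kronDataC (hc : CuspOrd M q) (n₀ : ℕ) (hl : HasLift hqM π hπ n₀) (c : A)
    (hcne : π c ^ (q ^ 2) ≠ π c) : KronData (twoRed hqM π hπ) q where
  hq := hq.out.two_le
  j := jT hqM π hπ
  j' := jT' hqM π hπ
  t := jb k M
  red_j := red_jT hqM π hπ
  red_j' := red_jT' hqM π hπ
  sep_j := sep_jT hqM π hπ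
  sep_t := sep_jb hqM
  cusp := hc.1
  cusp' := hc.2
  deg_j := deg_jT hqM π hπ
  deg_j' := deg_jT' hqM π hπ
  Fr := FrAlg M q k
  Fr_t := FrAlg_jb
  Fr_pow := FrAlg_pow
  Fr_mem := FrAlg_mem hqM
  n₀ := n₀
  lift := hl.1
  lift' := hl.2
  c := (c : Kb)
  c_mem := by rw [twoRed_A]; exact c.2
  cb := π c
  red_c := red_const hqM π hπ _ _
  cb_ne := hcne
  pole := pole_twoRed hqM π hπ _
  pole' := pole'_twoRed hqM π hπ
  on2 := twoRed_on2 hqM π hπ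

end Concrete

end Fermat.Agent.SS
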